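import Mathlib
import Fermat.Prelude.Def_GaloisRep_Residual
import Fermat.Prelude.Def_Deformations_MatrixRepresentation
import Fermat.Agent.Lib.Cheb.SpecQ

/-!
# S48 (Deligne–Serre) — TOP-LEVEL frozen interface (row deputy helper948)

Everything in this file is a `Prop` (no proofs, no `sorry`).  The row is assembled as

  `RankinStatement` + `EigenConjStatement`                       ⟹ `ValuesStatement`        (VAL)
  `ResidualStatement` (TOWER A1 + P2)                            ⟹ `ResidualMatStatement`   (MAT)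
  MAT + VAL + `ChebDensityStatement` + `FiniteImageStatement`    ⟹ `BoundedImageStatement`  (BND)
  BND + `LiftStatement`                                          ⟹ `ComplexLiftStatement`   (CLIFT)
  CLIFT                                                          ⟹ `ExactAwayStatement`     (EXA)
  EXA + `ChebDensityStatement`                                   ⟹ `ExactStatement`         (TWO)
  `RankinStatement` + `ChebDensityStatement`                     ⟹ `IrreducibleStatement`   (IRR)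
  `ExactStatement` + `IrreducibleStatement`                      ⟹ `S48Statement`           (END)

External inputs (deep): `ResidualStatement`, `EigenConjStatement`, `RankinStatement`,
`FiniteImageStatement`, `LiftStatement`, `Lib.Cheb.SpecQ.ChebDensityStatement`.
Plan, owners, status: `coord/S48.md` on branch `origin/helper948`.
-/

set_option autoImplicit false

open CongruenceSubgroup
open scoped MatrixGroups
open Matrix

namespace Fermat.Agent.S48.Top

open Fermat.Agent.Lib.Cheb.Spec Fermat.Agent.Lib.Cheb.SpecQ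

/-- `ℤ̄ ⊆ ℂ`, the ring of algebraic integers (the coefficient ring of the Prelude). -/
abbrev Zbar : Type := integralClosure ℤ ℂ

/-! ## The hypotheses of S48 -/

/-- The hypotheses of S48 on `(N, ε, f)`: `a₁ = 1` and the Hecke relations at `p ∤ N`. -/
def IsEigen (N : ℕ) [NeZero N] (ε : DirichletCharacter ℂ N) (f : CuspForm (Gamma1 N) 1) : Prop :=
  ModularFormClass.qCoeff f 1 = 1 ∧
  ∀ p : ℕ, p.Prime → ¬ p ∣ N → ∀ n : ℕ,
    ModularFormClass.qCoeff f (p * n) +
        ε (p : ZMod N) * (if p ∣ n then ModularFormClass.qCoeff f (n / p) else 0) =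
      ModularFormClass.qCoeff f p * ModularFormClass.qCoeff f n

/-! ## Attachment predicates -/

/-- `r : G_ℚ → GL₂(k)` is attached to `(f, ε)` through `φ : ℤ̄ → k` away from `D`: it is unramified
at every prime `p ∤ D`, and every Frobenius at `p` has trace `φ(a_p)` and determinant `φ(ε(p))`. -/
def IsAttachedMod {N : ℕ} [NeZero N] (ε : DirichletCharacter ℂ N) (f : CuspForm (Gamma1 N) 1)
    {k : Type} [Field k] (φ : Zbar →+* k) (D : ℕ) (r : GQ →* GL (Fin 2) k) : Prop :=
  ∀ p : ℕ, p.Prime → ¬ p ∣ D → ∀ A : ValuationSubring Qb, A.LiesOverPrime p →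
    (∀ σ ∈ A.inertiaSubgroupIn ℚ, r σ = 1) ∧
    ∀ σ : GQ, A.IsFrobeniusAt σ p →
      ∃ a e : Zbar, (a : ℂ) = ModularFormClass.qCoeff f p ∧ (e : ℂ) = ε (p : ZMod N) ∧
        ((r σ : GL (Fin 2) k) : Matrix (Fin 2) (Fin 2) k).trace = φ a ∧
        ((r σ : GL (Fin 2) k) : Matrix (Fin 2) (Fin 2) k).det = φ e

/-- `ρ : G_ℚ → GL₂(ℂ)` is congruent to `(f, ε)` modulo `φ` away from `D`: unramified at `p ∤ D`, and
trace and determinant of every Frobenius at `p` are algebraic integers with the same image under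
`φ` as `a_p` and `ε(p)`. -/
def IsCongruentC {N : ℕ} [NeZero N] (ε : DirichletCharacter ℂ N) (f : CuspForm (Gamma1 N) 1)
    {k : Type} [Field k] (φ : Zbar →+* k) (D : ℕ) (ρ : GQ →* GL (Fin 2) ℂ) : Prop :=
  ∀ p : ℕ, p.Prime → ¬ p ∣ D → ∀ A : ValuationSubring Qb, A.LiesOverPrime p →
    (∀ σ ∈ A.inertiaSubgroupIn ℚ, ρ σ = 1) ∧
    ∀ σ : GQ, A.IsFrobeniusAt σ p →
      ∃ a e t d : Zbar, (a : ℂ) = ModularFormClass.qCoeff f p ∧ (e : ℂ) = ε (p : ZMod N) ∧
        (t : ℂ) = ((ρ σ : GL (Fin 2) ℂ) : Matrix (Fin 2) (Fin 2) ℂ).trace ∧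
        (d : ℂ) = ((ρ σ : GL (Fin 2) ℂ) : Matrix (Fin 2) (Fin 2) ℂ).det ∧
        φ t = φ a ∧ φ d = φ e

/-- `ρ : G_ℚ → GL₂(ℂ)` is attached to `(f, ε)` away from `D` (the last clause of S48 for `D = N`). -/
def IsAttachedC {N : ℕ} [NeZero N] (ε : DirichletCharacter ℂ N) (f : CuspForm (Gamma1 N) 1)
    (D : ℕ) (ρ : GQ →* GL (Fin 2) ℂ) : Prop :=
  ∀ p : ℕ, p.Prime → ¬ p ∣ D → ∀ A : ValuationSubring Qb, A.LiesOverPrime p →
    (∀ σ ∈ A.inertiaSubgroupIn ℚ, ρ σ = 1) ∧
    ∀ σ : GQ, A.IsFrobeniusAt σ p →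
      ((ρ σ : GL (Fin 2) ℂ) : Matrix (Fin 2) (Fin 2) ℂ).trace = ModularFormClass.qCoeff f p ∧
      ((ρ σ : GL (Fin 2) ℂ) : Matrix (Fin 2) (Fin 2) ℂ).det = ε (p : ZMod N)

/-! ## Group-theoretic predicates (same bodies as `S48/FI/Spec.lean` of helper768) -/

section Defs

variable {F : Type*} [Field F]

/-- `(trace, det)` of an invertible `2 × 2` matrix. -/
def trDet (g : GL (Fin 2) F) : F × F :=
  ((g : Matrix (Fin 2) (Fin 2) F).trace, (g : Matrix (Fin 2) (Fin 2) F).det)

/-- Semisimplicity of the tautological representation of `G` on `F²`: every `G`-stable line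
has a `G`-stable complement. -/
def StableLinesSplit (G : Subgroup (GL (Fin 2) F)) : Prop :=
  ∀ v : Fin 2 → F, v ≠ 0 →
    (∀ g ∈ G, ∃ c : F, (g : Matrix (Fin 2) (Fin 2) F) *ᵥ v = c • v) →
    ∃ w : Fin 2 → F, (∀ c : F, w ≠ c • v) ∧
      ∀ g ∈ G, ∃ c : F, (g : Matrix (Fin 2) (Fin 2) F) *ᵥ w = c • w

/-- The condition `C(η, M)` of Deligne–Serre: a subset `H` of proportion at least `1 - η` on
which `(trace, det)` takes at most `M` values. -/
def CondC (η : ℝ) (M : ℕ) (G : Subgroup (GL (Fin 2) F)) : Prop :=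
  ∃ H : Set (GL (Fin 2) F), H ⊆ (G : Set (GL (Fin 2) F)) ∧
    (1 - η) * (Nat.card G : ℝ) ≤ (Nat.card H : ℝ) ∧
    ∃ P : Finset (F × F), P.card ≤ M ∧ ∀ h ∈ H, trDet h ∈ P

end Defs

/-! ## External inputs -/

/-- **P4 (RANKIN), sharp form.**  `∑_{p ∈ T} |a_p|² p^{-s} ≤ log (1/(s-1)) + C` for `1 < s ≤ 2`
and every finite set `T` of primes not dividing `N`. -/
def RankinStatement : Prop :=
  ∀ (N : ℕ) [NeZero N] (ε : DirichletCharacter ℂ N) (f : CuspForm (Gamma1 N) 1),
    IsEigen N ε f → ∃ C : ℝ, ∀ s : ℝ, 1 < s → s ≤ 2 → ∀ T : Finset ℕ,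
      (∀ p ∈ T, p.Prime ∧ ¬ p ∣ N) →
      ∑ p ∈ T, ‖ModularFormClass.qCoeff f p‖ ^ 2 * (p : ℝ) ^ (-s) ≤
        Real.log (1 / (s - 1)) + C

/-- **P1 (INT / rational structure of `S₁(Γ₁(N))`), in the form consumed by the row.**  The
eigenvalues `a_p` (`p ∤ N`) are algebraic integers of a number field `K ⊆ ℂ`, and for every
embedding `τ` of `K` the conjugate system `(τ a_p)` is again the system of eigenvalues of a
form satisfying the hypotheses of S48 (for some character `ε'`, in fact `τ ∘ ε`). -/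
def EigenConjStatement : Prop :=
  ∀ (N : ℕ) [NeZero N] (ε : DirichletCharacter ℂ N) (f : CuspForm (Gamma1 N) 1),
    IsEigen N ε f → ∃ K : IntermediateField ℚ ℂ, FiniteDimensional ℚ K ∧
      (∀ p : ℕ, p.Prime → ¬ p ∣ N →
        ModularFormClass.qCoeff f p ∈ K ∧ IsIntegral ℤ (ModularFormClass.qCoeff f p)) ∧
      ∀ τ : K →ₐ[ℚ] ℂ, ∃ (ε' : DirichletCharacter ℂ N) (f' : CuspForm (Gamma1 N) 1),
        IsEigen N ε' f' ∧ ∀ p : ℕ, p.Prime → ¬ p ∣ N → ∀ x : K,
          (x : ℂ) = ModularFormClass.qCoeff f p → ModularFormClass.qCoeff f' p = τ x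

/-- **P2 + P3 (TOWER A1), in the shape of the frozen S29.**  For every large prime `ℓ`, every
field `k` of characteristic `ℓ` and every `φ : ℤ̄ → k` there is a residual Galois representation
over `k`, unramified outside `Nℓ`, with Frobenius characteristic polynomials
`X² - φ(a_p) X + φ(ε(p))` (`p ∤ Nℓ`). -/
def ResidualStatement : Prop :=
  ∀ (N : ℕ) [NeZero N] (ε : DirichletCharacter ℂ N) (f : CuspForm (Gamma1 N) 1),
    IsEigen N ε f → ∃ B : ℕ, ∀ ℓ : ℕ, ℓ.Prime → B < ℓ →
      ∀ (k : Type) [Field k] [CharP k ℓ] (φ : Zbar →+* k),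
        ∃ ρ : ResidualGaloisRep k,
          ∀ p : ℕ, p.Prime → ¬ p ∣ N * ℓ → ρ.IsUnramifiedAt p ∧
            ∀ A : ValuationSubring Qb, A.LiesOverPrime p →
              ∀ σ : GQ, A.IsFrobeniusAt σ p →
                ∃ a e : Zbar, (a : ℂ) = ModularFormClass.qCoeff f p ∧
                  (e : ℂ) = ε (p : ZMod N) ∧
                  LinearMap.charpoly (ρ.ρ σ) =
                    Polynomial.X ^ 2 - Polynomial.C (φ a) * Polynomial.X + Polynomial.C (φ e)

/-- **P5 (FI), general-field form.**  For `η < 1/2` and `M` there is `A` such that for every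
prime `ℓ > A`, every field `k` of characteristic `ℓ` and every finite semisimple subgroup
`G ≤ GL₂(k)` with `C(η, M)` one has `|G| ≤ A`. -/
def FiniteImageStatement : Prop :=
  ∀ (η : ℝ) (M : ℕ), η < 1 / 2 → ∃ A : ℕ, ∀ ℓ : ℕ, ℓ.Prime → A < ℓ →
    ∀ (k : Type) [Field k] [CharP k ℓ] (G : Subgroup (GL (Fin 2) k)), Finite G →
      StableLinesSplit G → CondC η M G → Nat.card G ≤ A

/-- **P6a (LIFT).**  For every prime `ℓ` there are a field `k` of characteristic `ℓ` and
`φ : ℤ̄ → k` such that every homomorphism `r` from a finite group of order prime to `ℓ` to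
`GL₂(k)` lifts to `GL₂(ℂ)`: traces and determinants of the lift are algebraic integers reducing
to those of `r` under `φ`. -/
def LiftStatement : Prop :=
  ∀ ℓ : ℕ, ℓ.Prime → ∃ (k : Type) (_ : Field k) (_ : CharP k ℓ) (φ : Zbar →+* k),
    ∀ (G : Type) [Group G] [Finite G], ¬ ℓ ∣ Nat.card G → ∀ r : G →* GL (Fin 2) k,
      ∃ R : G →* GL (Fin 2) ℂ, ∀ g : G, ∃ t d : Zbar,
        (t : ℂ) = ((R g : GL (Fin 2) ℂ) : Matrix (Fin 2) (Fin 2) ℂ).trace ∧
        (d : ℂ) = ((R g : GL (Fin 2) ℂ) : Matrix (Fin 2) (Fin 2) ℂ).det ∧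
        φ t = ((r g : GL (Fin 2) k) : Matrix (Fin 2) (Fin 2) k).trace ∧
        φ d = ((r g : GL (Fin 2) k) : Matrix (Fin 2) (Fin 2) k).det

/-! ## Derived statements (the layers of the assembly) -/

/-- **VAL** (D–S Prop. 5.5): outside a set of primes of upper density `≤ η`, the eigenvalues
`a_p` take finitely many values. -/
def ValuesStatement : Prop :=
  ∀ (N : ℕ) [NeZero N] (ε : DirichletCharacter ℂ N) (f : CuspForm (Gamma1 N) 1),
    IsEigen N ε f → ∀ η : ℝ, 0 < η → ∃ Y : Finset ℂ,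
      HasUpperDensity {p : ℕ | p.Prime ∧ ¬ p ∣ N ∧ ModularFormClass.qCoeff f p ∉ Y} η

/-- **MAT**: `ResidualStatement` in matrix form, semisimplified. -/
def ResidualMatStatement : Prop :=
  ∀ (N : ℕ) [NeZero N] (ε : DirichletCharacter ℂ N) (f : CuspForm (Gamma1 N) 1),
    IsEigen N ε f → ∃ B : ℕ, ∀ ℓ : ℕ, ℓ.Prime → B < ℓ →
      ∀ (k : Type) [Field k] [CharP k ℓ] (φ : Zbar →+* k),
        ∃ r : GQ →* GL (Fin 2) k, GaloisFactorsThroughFiniteLevel r ∧
          StableLinesSplit r.range ∧ IsAttachedMod ε f φ (N * ℓ) r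

/-- **BND** (D–S §8, first half): the images of the mod-`ℓ` representations have bounded order. -/
def BoundedImageStatement : Prop :=
  ∀ (N : ℕ) [NeZero N] (ε : DirichletCharacter ℂ N) (f : CuspForm (Gamma1 N) 1),
    IsEigen N ε f → ∃ A B : ℕ, ∀ ℓ : ℕ, ℓ.Prime → B < ℓ →
      ∀ (k : Type) [Field k] [CharP k ℓ] (φ : Zbar →+* k),
        ∃ r : GQ →* GL (Fin 2) k, GaloisFactorsThroughFiniteLevel r ∧
          IsAttachedMod ε f φ (N * ℓ) r ∧ Finite r.range ∧ Nat.card r.range ≤ A

/-- **CLIFT**: complex representations of bounded image, congruent to `(f, ε)` modulo a place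
above `ℓ`, for every large `ℓ`. -/
def ComplexLiftStatement : Prop :=
  ∀ (N : ℕ) [NeZero N] (ε : DirichletCharacter ℂ N) (f : CuspForm (Gamma1 N) 1),
    IsEigen N ε f → ∃ A B : ℕ, ∀ ℓ : ℕ, ℓ.Prime → B < ℓ →
      ∃ (k : Type) (_ : Field k) (_ : CharP k ℓ) (φ : Zbar →+* k) (ρ : GQ →* GL (Fin 2) ℂ),
        GaloisFactorsThroughFiniteLevel ρ ∧ IsCongruentC ε f φ (N * ℓ) ρ ∧
          Finite ρ.range ∧ Nat.card ρ.range ≤ A

/-- **EXA** (D–S §8, second half): for every large `ℓ` a complex representation of finite image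
attached to `(f, ε)` away from `Nℓ`. -/
def ExactAwayStatement : Prop :=
  ∀ (N : ℕ) [NeZero N] (ε : DirichletCharacter ℂ N) (f : CuspForm (Gamma1 N) 1),
    IsEigen N ε f → ∃ B : ℕ, ∀ ℓ : ℕ, ℓ.Prime → B < ℓ →
      ∃ ρ : GQ →* GL (Fin 2) ℂ, GaloisFactorsThroughFiniteLevel ρ ∧ IsAttachedC ε f (N * ℓ) ρ

/-- **TWO** (removing `ℓ` by comparing two primes): a complex representation of finite image
attached to `(f, ε)` away from `N`. -/
def ExactStatement : Prop :=
  ∀ (N : ℕ) [NeZero N] (ε : DirichletCharacter ℂ N) (f : CuspForm (Gamma1 N) 1),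
    IsEigen N ε f →
      ∃ ρ : GQ →* GL (Fin 2) ℂ, GaloisFactorsThroughFiniteLevel ρ ∧ IsAttachedC ε f N ρ

/-- **IRR**: such a representation is irreducible. -/
def IrreducibleStatement : Prop :=
  ∀ (N : ℕ) [NeZero N] (ε : DirichletCharacter ℂ N) (f : CuspForm (Gamma1 N) 1),
    IsEigen N ε f → ∀ ρ : GQ →* GL (Fin 2) ℂ, GaloisFactorsThroughFiniteLevel ρ →
      IsAttachedC ε f N ρ → (Deformation.matrixRepresentation ρ).IsIrreducible

/-- The frozen statement S48, as a `Prop`. -/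
def S48Statement : Prop :=
  ∀ (N : ℕ) [NeZero N] (ε : DirichletCharacter ℂ N) (f : CuspForm (Gamma1 N) 1),
    ModularFormClass.qCoeff f 1 = 1 →
    (∀ p : ℕ, p.Prime → ¬ p ∣ N → ∀ n : ℕ,
        ModularFormClass.qCoeff f (p * n) +
            ε (p : ZMod N) * (if p ∣ n then ModularFormClass.qCoeff f (n / p) else 0) =
          ModularFormClass.qCoeff f p * ModularFormClass.qCoeff f n) →
    ∃ ρ : GQ →* GL (Fin 2) ℂ, GaloisFactorsThroughFiniteLevel ρ ∧
      (Deformation.matrixRepresentation ρ).IsIrreducible ∧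
      ∀ p : ℕ, p.Prime → ¬ p ∣ N →
        ∀ A : ValuationSubring (AlgebraicClosure ℚ), A.LiesOverPrime p →
          (∀ σ ∈ A.inertiaSubgroupIn ℚ, ρ σ = 1) ∧
          ∀ σ : GQ, A.IsFrobeniusAt σ p →
            ((ρ σ : GL (Fin 2) ℂ) : Matrix (Fin 2) (Fin 2) ℂ).trace =
              ModularFormClass.qCoeff f p ∧
            ((ρ σ : GL (Fin 2) ℂ) : Matrix (Fin 2) (Fin 2) ℂ).det = ε (p : ZMod N)

/-! ## The pieces of the assembly (each is to be proved as `theorem foo : FooPiece`) -/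

/-- (VAL) -/
def ValuesPiece : Prop := RankinStatement → EigenConjStatement → ValuesStatement
/-- (MAT) -/
def ResidualMatPiece : Prop := ResidualStatement → ResidualMatStatement
/-- (BND) -/
def BoundedImagePiece : Prop :=
  ResidualMatStatement → ValuesStatement → ChebDensityStatement → FiniteImageStatement →
    BoundedImageStatement
/-- (CLIFT) -/
def ComplexLiftPiece : Prop := BoundedImageStatement → LiftStatement → ComplexLiftStatement
/-- (EXA) -/
def ExactAwayPiece : Prop := ComplexLiftStatement → ExactAwayStatement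
/-- (TWO) -/
def ExactPiece : Prop := ExactAwayStatement → ChebDensityStatement → ExactStatement
/-- (IRR) -/
def IrreduciblePiece : Prop := RankinStatement → ChebDensityStatement → IrreducibleStatement
/-- (END) -/
def EndPiece : Prop := ExactStatement → IrreducibleStatement → S48Statement

end Fermat.Agent.S48.Top
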