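import Fermat.Agent.S48.Top.ResultOfOpen
import Fermat.Agent.S48.H282.K3
import Fermat.Agent.S48.Kum.Norm1In
import Fermat.Agent.S48.F1.DegAlpha
import Fermat.Agent.S48.F1.RaiseF1
import Fermat.Agent.S48.H428.NormId1

/-!
# Row S48 (Deligne–Serre): the frozen statement from `Core1Top` ALONE (helper948)

State of Tower A1 at 2026-09-27 21:00Z: the sub-tower A1-KUM is CLOSED (`m4b1_closed`), and on
the Eichler–Shimura side only the Kummer core `H556.Core1Top` (sub-tower A1-RED) is open.

* `normId1_closed : H136.NormId1Statement`   (`H428.normId1_of_deg` + `F1.finrankAlong_alpha1_le`);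
* `m4b1_closed    : Res.M4b1Statement`       (`k3` = `H282.pieceK3_Gamma1`,
                                              `norm` = `Kum.normAn1_of_deg` + `F1.degAlpha1`);
* `rawES1_of_core : H556.Core1Top → Res.RawES1Statement true`;
* `result_of_core : H556.Core1Top → S48Statement`.
-/

set_option autoImplicit false

open CongruenceSubgroup

namespace Fermat.Agent.S48.Top

open Fermat.Agent.S48

/-- **NORMID1**, unconditional. -/
theorem normId1_closed : H136.NormId1Statement :=
  H428.normId1_of_deg F1.finrankAlong_alpha1_le

/-- **Sub-tower A1-KUM**, unconditional: the Kummer map of `Γ₁(M)`. -/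
theorem m4b1_closed : Res.M4b1Statement :=
  m4b1_of_open (fun M _ ℓ hℓ => H282.pieceK3_Gamma1 M ℓ hℓ)
    (fun M _ _ _ hpM => Kum.normAn1_of_deg hpM (H149.dictMero1 M) (F1.degAlpha1 M _ hpM))

/-- Raw Eichler–Shimura on `J₁(M)[ℓ]` from the Kummer core. -/
theorem rawES1_of_core (hcore : H556.Core1Top) : Res.RawES1Statement true :=
  rawES1_of_open hcore normId1_closed

/-- **Row S48 from `Core1Top`.** -/
theorem result_of_core (hcore : H556.Core1Top) : S48Statement :=
  result_of_two (rawES1_of_core hcore) m4b1_closed

end Fermat.Agent.S48.Top
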