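import Fermat.Agent.S48.Top.Chain
import Fermat.Agent.S48.H128.EigenConj

/-!
# Row S48 (Deligne–Serre): the final chain, `ResidualStatement → S48Statement`

All inputs of the row except the residual representations (`Top.ResidualStatement`,
tower A1) are closed on main:

* `H128.eigenConj : Top.EigenConjStatement` (input P1 = INT: the Hecke eigenvalues are
  algebraic integers and the eigen-property is stable under conjugation),
* `Top.s48_of_int_res : EigenConjStatement → ResidualStatement → S48Statement`
  (`Top/Chain.lean`: Rankin bound, values, residual matrices, bounded image, complex lift,
  exactness away from a finite set, exactness, irreducibility, end piece).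

Hence the frozen statement S48 follows from `Top.ResidualStatement` alone:

  `Fermat.Agent.S48.Top.result_of_residual : ResidualStatement → S48Statement`.

`S48Statement` is the frozen statement verbatim, so `Fermat/Agent/S48.lean` is

  `theorem result … := Top.result_of_residual <residual> N ε f hf₁ hT`.
-/

set_option autoImplicit false

namespace Fermat.Agent.S48.Top

/-- The values piece, unconditionally: for an eigenform `f` of weight one, the Hecke
eigenvalues `a_p` (`p ∤ N`) take finitely many values, up to a set of primes of arbitrarily
small upper density. -/
theorem values_unconditional : ValuesStatement :=
  values_of_int Fermat.Agent.S48.H128.eigenConj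

/-- **The final chain of row S48.**  The frozen statement S48 (Deligne–Serre) follows from
the existence of the residual representations (`ResidualStatement`, tower A1). -/
theorem result_of_residual (hRes : ResidualStatement) : S48Statement :=
  s48_of_int_res Fermat.Agent.S48.H128.eigenConj hRes

end Fermat.Agent.S48.Top
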