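import Fermat.Agent.S48.Top.End
import Fermat.Agent.S48.H308.RankinTop
import Fermat.Agent.S48.H308.Values
import Fermat.Agent.S48.H108.Mat
import Fermat.Agent.S48.H108.Bnd
import Fermat.Agent.S48.H468.CLift
import Fermat.Agent.S48.H948.ExactAway
import Fermat.Agent.S48.H948.Two
import Fermat.Agent.S48.H948.Irr2
import Fermat.Agent.S48.H428.FiniteImage
import Fermat.Agent.S48.H528.LiftTop
import Fermat.Agent.Lib.Cheb.ChebDensity

/-!
# S48 — the chain with every landed input discharged (helper948, row deputy)

`s48_of_int_res` (and `s48_of_val_res`): the frozen statement S48 follows from the TWO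
remaining inputs

* `Top.EigenConjStatement`  (P1 = INT: rational structure of `S₁(Γ₁(N))`, conjugate eigenforms),
* `Top.ResidualStatement`   (P2 + P3 = TOWER A1: mod-`ℓ` Galois representations).

Discharged here: RANKIN (`H308.rankin`), FI (`H428.finiteImage`), LIFT (`H528.liftStatement`),
CHEB-Q (`Lib.Cheb.chebDensity`), and the glue pieces VAL (`H308.values`), MAT
(`H108.residualMat`), BND (`H108.boundedImage`), CLIFT (`H468.complexLiftPiece`),
EXA / TWO / IRR (`H948`), END.
-/

set_option autoImplicit false

namespace Fermat.Agent.S48.Top

/-- S48 from `ValuesStatement` (the only consequence of INT used by the row) and RES. -/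
theorem s48_of_val_res (hVal : ValuesStatement) (hRes : ResidualStatement) :
    S48Statement :=
  endPiece
    (Fermat.Agent.S48.H948.exactPiece
      (Fermat.Agent.S48.H948.exactAwayPiece
        (Fermat.Agent.S48.H468.complexLiftPiece
          (Fermat.Agent.S48.H108.boundedImage (Fermat.Agent.S48.H108.residualMat hRes) hVal
            Fermat.Agent.Lib.Cheb.chebDensity Fermat.Agent.S48.H428.finiteImage)
          Fermat.Agent.S48.H528.liftStatement))
      Fermat.Agent.Lib.Cheb.chebDensity)
    (Fermat.Agent.S48.H948.irreduciblePiece Fermat.Agent.S48.H308.rankin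
      Fermat.Agent.Lib.Cheb.chebDensity)

/-- The exceptional-set statement VAL from INT alone. -/
theorem values_of_int (hConj : EigenConjStatement) : ValuesStatement :=
  Fermat.Agent.S48.H308.values Fermat.Agent.S48.H308.rankin hConj

/-- S48 from the two remaining inputs INT and RES. -/
theorem s48_of_int_res (hConj : EigenConjStatement) (hRes : ResidualStatement) :
    S48Statement :=
  s48_of_val_res (values_of_int hConj) hRes

end Fermat.Agent.S48.Top
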