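import Fermat.Agent.S48.Top.Spec

/-!
# S48 — top-level assembly, last step (END) and the chain of the pieces (helper948)
-/

set_option autoImplicit false

open CongruenceSubgroup
open scoped MatrixGroups

namespace Fermat.Agent.S48.Top

open Fermat.Agent.Lib.Cheb.Spec Fermat.Agent.Lib.Cheb.SpecQ

/-- (END) -/
theorem endPiece : EndPiece := by
  intro hE hI N _ ε f hf₁ hT
  have hyp : IsEigen N ε f := ⟨hf₁, hT⟩
  obtain ⟨ρ, hfin, hatt⟩ := hE N ε f hyp
  exact ⟨ρ, hfin, hI N ε f hyp ρ hfin hatt, hatt⟩

/-- The whole chain: S48 from the six external inputs and the seven pieces. -/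
theorem s48_of_pieces
    (pVal : ValuesPiece) (pMat : ResidualMatPiece) (pBnd : BoundedImagePiece)
    (pLift : ComplexLiftPiece) (pExa : ExactAwayPiece) (pTwo : ExactPiece)
    (pIrr : IrreduciblePiece)
    (hRankin : RankinStatement) (hConj : EigenConjStatement) (hRes : ResidualStatement)
    (hFI : FiniteImageStatement) (hLift : LiftStatement) (hCheb : ChebDensityStatement) :
    S48Statement :=
  endPiece
    (pTwo (pExa (pLift (pBnd (pMat hRes) (pVal hRankin hConj) hCheb hFI) hLift)) hCheb)
    (pIrr hRankin hCheb)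

end Fermat.Agent.S48.Top
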