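import Fermat.Agent.S48.Top.ResultOf
import Fermat.Agent.S48.H948.ResAsm

/-!
# Row S48 (Deligne–Serre): the frozen statement from the geometric side of Tower A1

`result_of_geo : H948.GeoStatement → S48Statement`.

`H948.GeoStatement` (file `H948/ResAsm.lean`) is the ONLY open input of the row: for every level
`M₀` and every prime `ℓ` larger than a bound depending on `M₀`, an `ℓ`-torsion Galois module
`J` (the `ℓ`-torsion of the Jacobian of `X₁(M₀ ℓ)`), unramified outside `M₀ ℓ`, with operators
`T p`, `D p` satisfying `σ² - T_p σ + p D_p = 0` for Frobenius elements `σ` at `p ∤ M₀ ℓ`, and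
a Kummer bridge `κ : Hom_par(Γ₁(M₀ ℓ), 𝔽_ℓ) → J`, additive, injective, intertwining
`H548.heckeHom1 p` with `T p` and `H548.diaHom1 s` (`s₁₁ ≡ p`) with `D p`.
-/

set_option autoImplicit false

namespace Fermat.Agent.S48.Top

/-- **Row S48 from the geometric side of Tower A1.** -/
theorem result_of_geo (hGeo : Fermat.Agent.S48.H948.GeoStatement) : S48Statement :=
  result_of_residual (Fermat.Agent.S48.H948.residualStatement_of_geo hGeo)

end Fermat.Agent.S48.Top
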