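import Fermat.Agent.S48.Top.ResultOfTwo
import Fermat.Agent.S48.Kum.M4b1
import Fermat.Agent.S48.H68.RawES1Val
import Fermat.Agent.S48.H150.HI1
import Fermat.Agent.S48.H332.LeafK1
import Fermat.Agent.S48.H642.K2
import Fermat.Agent.S48.H496.Inter1
import Fermat.Agent.S48.H149.Mero1
import Fermat.Agent.S48.H102.DictConst
import Fermat.Agent.S48.H528.DiaAn

/-!
# Row S48 (Deligne–Serre): the frozen statement from the FOUR leaves still open (helper948)

State of Tower A1 at 2026-09-27 20:45Z.  Everything else is plugged in from `main`: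

* cohomology side            : `H451.eigenclass1`  (inside `Top.result_of_two`);
* A1-ES engine + VAL1 + HI1  : `H68.rawES1_of_three`, `H150.hi1`;
* A1-KUM leaves              : `k1` (`H332.leafK1`), `k2` (`H642.k2`), `inter` (`H496.dictInter1`),
                               `mero` (`H149.dictMero1`), `const` (`H102.leaves_const`),
                               `corr` (`H150.corrInputs_hecke`), `dia` (`H528.diaAn1`).

OPEN (the four hypotheses of `result_of_open`):

* `H556.Core1Top`            : the Kummer core for `F1 M` (sub-tower A1-RED);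
* `H136.NormId1Statement`    : `Nm_α (β y) = V_p y · det (secMat p (δ_p y))`;
* `Kum.PieceK3` for `Γ₁(M)`  : descent `ℂ → ℚ̄` of the Kummer function;
* `Kum.NormAn1`              : the analytic norm formula.
-/

set_option autoImplicit false

open CongruenceSubgroup

namespace Fermat.Agent.S48.Top

open Fermat.Agent.S48

/-- `Res.M4b1Statement` from the two open leaves of A1-KUM. -/
theorem m4b1_of_open
    (hk3 : ∀ (M : ℕ) [NeZero M] (ℓ : ℕ), ℓ.Prime → Kum.PieceK3 (Gamma1 M) (F1.F1Bar M) ℓ)
    (hnorm : ∀ (M : ℕ) [NeZero M] (p : ℕ) [Fact p.Prime] (hpM : ¬ p ∣ M), Kum.NormAn1 M p hpM) :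
    Res.M4b1Statement :=
  Kum.m4b1_of_leaves
    { k1 := fun M _ ℓ hℓ => H332.leafK1 M ℓ hℓ
      k2 := fun M _ ℓ hℓ => H642.k2 M ℓ hℓ
      k3 := hk3
      inter := fun M _ => H496.dictInter1 M
      mero := fun M _ => H149.dictMero1 M
      const := H102.leaves_const
      corr := fun M _ p _ _ =>
        haveI : NeZero p := ⟨(Fact.out : p.Prime).ne_zero⟩
        H150.corrInputs_hecke _ M p
      norm := hnorm
      dia := fun M _ p _ hpM => H528.diaAn1 M p hpM }

/-- `Res.RawES1Statement true` from the two open leaves of A1-ES. -/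
theorem rawES1_of_open (hcore : H556.Core1Top) (hnid : H136.NormId1Statement) :
    Res.RawES1Statement true :=
  H68.rawES1_of_three hcore H150.hi1 hnid

/-- **Row S48 from the four open leaves.** -/
theorem result_of_open (hcore : H556.Core1Top) (hnid : H136.NormId1Statement)
    (hk3 : ∀ (M : ℕ) [NeZero M] (ℓ : ℕ), ℓ.Prime → Kum.PieceK3 (Gamma1 M) (F1.F1Bar M) ℓ)
    (hnorm : ∀ (M : ℕ) [NeZero M] (p : ℕ) [Fact p.Prime] (hpM : ¬ p ∣ M), Kum.NormAn1 M p hpM) :
    S48Statement :=
  result_of_two (rawES1_of_open hcore hnid) (m4b1_of_open hk3 hnorm)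

end Fermat.Agent.S48.Top
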