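import Fermat.Agent.S48.Top.ResultOf
import Fermat.Agent.S48.H948.Occ1

/-!
# Row S48 (Deligne–Serre): the frozen statement from the TWO open inputs of Tower A1

`result_of_es_kum s : Res.RawES1Statement s → H948.Kum1Statement s → S48Statement`

* `Res.RawES1Statement s` (helper168, `S48/Res/Parts.lean`): raw Eichler–Shimura with diamond on
  `J₁(M)(ℚ̄)[ℓ]` (port of rows S18 + S37 to `X₁(M)`);
* `H948.Kum1Statement s` (`S48/H948/Occ1.lean`): the Kummer bridge
  `Hom_par(Γ₁(M), 𝔽_ℓ) → J₁(M)(ℚ̄)[ℓ]` (port of S29 M4b to `X₁(M)`).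

`s : Bool` is the orientation of the diamond operator (the same in both inputs; `true` expected).
-/

set_option autoImplicit false

namespace Fermat.Agent.S48.Top

/-- **Row S48 from RawES1 and KUM1.** -/
theorem result_of_es_kum (s : Bool) (hES : Fermat.Agent.S48.Res.RawES1Statement s)
    (hK : Fermat.Agent.S48.H948.Kum1Statement s) : S48Statement :=
  result_of_residual (Fermat.Agent.S48.H948.residual_of_es_kum s hES hK)

end Fermat.Agent.S48.Top
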