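import Fermat.Agent.S48.Top.ResultOf
import Fermat.Agent.S48.Res.ChainOcc
import Fermat.Agent.S48.H451.Eigenclass1

/-!
# Row S48 (Deligne–Serre): the frozen statement from the TWO open inputs of Tower A1 (helper948)

`result_of_two : Res.RawES1Statement true → Res.M4b1Statement → S48Statement`

* `Res.RawES1Statement true` (`S48/Res/Parts.lean`): raw Eichler–Shimura with diamond on
  `J₁(M)(ℚ̄)[ℓ]` (sub-tower A1-ES + A1-RED);
* `Res.M4b1Statement` (`S48/Res/PartsOcc.lean`): the Kummer map
  `Hom_par(Γ₁(M), 𝔽_ℓ) → J₁(M)(ℚ̄)[ℓ]` with its Hecke and diamond equivariance (sub-tower A1-KUM,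
  `Kum.m4b1_of_leaves`).

The cohomology side is CLOSED: `H451.eigenclass1 : Res.Eigenclass1Statement` (from
`H948.cohStatement`), so NO further input (in particular no `Res.CohEigStatement`) is needed:
the chain is `result_of_residual ∘ Res.residual_of_three`.
-/

set_option autoImplicit false

namespace Fermat.Agent.S48.Top

/-- **Row S48 from RawES1 and M4b1.** -/
theorem result_of_two (hES : Fermat.Agent.S48.Res.RawES1Statement true)
    (hK : Fermat.Agent.S48.Res.M4b1Statement) : S48Statement :=
  result_of_residual
    (Fermat.Agent.S48.Res.residual_of_three hES Fermat.Agent.S48.H451.eigenclass1 hK)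

end Fermat.Agent.S48.Top
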